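/-
P-S44/S40, block C3 leaf B0 (KUMMER GLUE) = seam between block B (elliptic side: `K0(V)` is generated by
`ζ_p` and ONE `p`-th root `b` of a unit of `O0`) and the cover trick (the Kummer class `a ∈ K0ˣ` of the
extension `0 → L → V → V/L → 0`, `a = β ^ p`).  Author: helper91.  Finite level, no topology, no infinite
Kummer theory, no hypothesis `p ≠ 2`.

`I = P.inertiaSubgroupIn ℚ`, `O0 = inertiaInt P`, `v` = the normalised valuation of `K0 = Qbar^I`.

* `exists_zpow_mul_unit` : every nonzero `I`-fixed `c : Qbar` is `p ^ m * w`, `m : ℤ`, `P.valuation w = 1`;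
  `zpow_unique` : `m` is unique (this `m` is `v(c)`).
* `exists_pow_quot_fixed` (STEP A) : if every `t ∈ I` fixing `ζ` and `b` fixes `β` (`b ^ p`, `β ^ p` fixed by
  `I`), then `β / b ^ n` is fixed by every `t ∈ I` fixing `ζ`, for some `n`.
* `dvd_of_pow_fixed` (STEP B) : `c` fixed by `{t ∈ I | t ζ = ζ}`, `c ^ p` fixed by `I`,
  `c ^ p = p ^ m * unit` ⟹ `p ∣ m`  (norm over the `I`-orbit of `c`, which has at most `p - 1` elements).
* `dvd_val_of_peu` : the bridge: `b ^ p = u` an `I`-fixed unit, `β ^ p = a ≠ 0` `I`-fixed,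
  `(∀ t ∈ I, t ζ = ζ → t b = b → t β = β)`, `a = p ^ m * unit` ⟹ `p ∣ m`.
-/
import Mathlib
import Fermat.Agent.S56x.Flat.InertiaField

set_option autoImplicit false
set_option linter.unusedSectionVars false
set_option linter.style.haveILetI false

noncomputable section

namespace Fermat.Agent.S40x.Bridge.KummerPeu

open Fermat.Agent.S56x.Flat.InertiaField

local notation "Qbar" => AlgebraicClosure ℚ
local notation "Γℚ" => (AlgebraicClosure ℚ ≃ₐ[ℚ] AlgebraicClosure ℚ)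

variable (P : ValuationSubring Qbar) {p : ℕ}

/-- units of `P`, in valuation form -/
theorem val_eq_one_iff (w : Qbar) : P.valuation w = 1 ↔ w ∈ P ∧ w ∉ P.nonunits := by
  rw [ValuationSubring.mem_nonunits_iff, ← P.valuation_le_one_iff, not_lt]
  constructor
  · intro h
    exact ⟨h.le, h.ge⟩
  · rintro ⟨h1, h2⟩
    exact le_antisymm h1 h2

theorem val_p_lt_one (hP : P.LiesOverPrime p) : P.valuation (p : Qbar) < 1 :=
  (ValuationSubring.mem_nonunits_iff P).mp hP

theorem val_p_pos (hp : p.Prime) : 0 < P.valuation (p : Qbar) := by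
  have : (p : Qbar) ≠ 0 := Nat.cast_ne_zero.mpr hp.ne_zero
  exact zero_lt_iff.mpr ((P.valuation).ne_zero_iff.mpr this)

/-- uniqueness of the `p`-adic valuation of `p ^ x * unit`. -/
theorem zpow_unique (hp : p.Prime) (hP : P.LiesOverPrime p) {x y : ℤ} {w w' : Qbar}
    (hw : P.valuation w = 1) (hw' : P.valuation w' = 1)
    (h : (p : Qbar) ^ x * w = (p : Qbar) ^ y * w') : x = y := by
  have h1 := congrArg P.valuation h
  rw [map_mul, map_mul, map_zpow₀, map_zpow₀, hw, hw', mul_one, mul_one] at h1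
  exact (zpow_right_strictAnti₀ (val_p_pos P hp) (val_p_lt_one P hP)).injective h1

/-- a nonzero element of `inertiaInt P` is `p ^ n * unit`. -/
theorem exists_pow_mul_unit_int (hp : p.Prime) (hP : P.LiesOverPrime p) (c : inertiaInt P)
    (hc : c ≠ 0) : ∃ (n : ℕ) (w : inertiaInt P), IsUnit w ∧ c = (p : inertiaInt P) ^ n * w := by
  classical
  have hex : ∃ n : ℕ, ¬ (p : inertiaInt P) ^ (n + 1) ∣ c := by
    by_contra hcon
    simp only [not_exists, not_not] at hcon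
    apply hc
    apply eq_zero_of_forall_pow_dvd P hp hP
    intro n
    rcases n with _ | n
    · simp
    · exact hcon n
  have hfind := Nat.find_spec hex
  set n := Nat.find hex with hn
  have hdvd : (p : inertiaInt P) ^ n ∣ c := by
    rcases Nat.eq_zero_or_pos n with h0 | hpos
    · rw [h0, pow_zero]; exact one_dvd c
    · have hmin : ¬ ¬ (p : inertiaInt P) ^ ((n - 1) + 1) ∣ c :=
        Nat.find_min hex (by omega)
      rw [not_not] at hmin
      have : n - 1 + 1 = n := by omega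
      rwa [this] at hmin
  obtain ⟨w, hw⟩ := hdvd
  refine ⟨n, w, ?_, hw⟩
  rw [isUnit_inertiaInt_iff]
  intro hnu
  obtain ⟨d, hd⟩ := natCast_dvd_of_mem_nonunits P hp hP w hnu
  apply hfind
  refine ⟨d, ?_⟩
  rw [hw, hd, pow_succ, mul_assoc]

/-- a nonzero inertia-fixed element of `Qbar` is `p ^ m * unit`. -/
theorem exists_zpow_mul_unit (hp : p.Prime) (hP : P.LiesOverPrime p) (c : Qbar) (hc0 : c ≠ 0)
    (hc : ∀ t ∈ P.inertiaSubgroupIn ℚ, t c = c) :
    ∃ (m : ℤ) (w : Qbar), P.valuation w = 1 ∧ c = (p : Qbar) ^ m * w := by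
  have key : ∀ c : Qbar, c ≠ 0 → c ∈ P → (∀ t ∈ P.inertiaSubgroupIn ℚ, t c = c) →
      ∃ (n : ℕ) (w : Qbar), P.valuation w = 1 ∧ c = (p : Qbar) ^ n * w := by
    intro c hc0 hcP hc
    have hne : (⟨c, hcP, hc⟩ : inertiaInt P) ≠ 0 := by
      intro h
      exact hc0 (congrArg (fun z : inertiaInt P => (z : Qbar)) h)
    obtain ⟨n, w, hw, hcw⟩ := exists_pow_mul_unit_int P hp hP ⟨c, hcP, hc⟩ hne
    refine ⟨n, (w : Qbar), ?_, ?_⟩
    · rw [val_eq_one_iff]
      exact ⟨w.2.1, (isUnit_inertiaInt_iff P w).mp hw⟩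
    · have := congrArg (fun z : inertiaInt P => (z : Qbar)) hcw
      simpa using this
  rcases P.mem_or_inv_mem c with h | h
  · obtain ⟨n, w, hw, hcw⟩ := key c hc0 h hc
    exact ⟨n, w, hw, by rw [hcw, zpow_natCast]⟩
  · have hfix : ∀ t ∈ P.inertiaSubgroupIn ℚ, t c⁻¹ = c⁻¹ := by
      intro t ht
      rw [map_inv₀, hc t ht]
    obtain ⟨n, w, hw, hcw⟩ := key c⁻¹ (inv_ne_zero hc0) h hfix
    refine ⟨-(n : ℤ), w⁻¹, ?_, ?_⟩
    · rw [map_inv₀, hw, inv_one]
    · have : c = (c⁻¹)⁻¹ := (inv_inv c).symm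
      rw [this, hcw, mul_inv, zpow_neg, zpow_natCast]

/-! ### Step A: characters into `μ_p` -/

section StepA

variable {ζ : Qbar} (hζ : IsPrimitiveRoot ζ p)
include hζ

theorem zeta_pow_eq_iff (hp : p.Prime) (x y : ℕ) : ζ ^ x = ζ ^ y ↔ (x : ZMod p) = (y : ZMod p) := by
  have hx : ζ ^ x = ζ ^ (x % p) := by
    conv_rhs => rw [hζ.eq_orderOf]
    exact (pow_mod_orderOf ζ x).symm
  have hy : ζ ^ y = ζ ^ (y % p) := by
    conv_rhs => rw [hζ.eq_orderOf]
    exact (pow_mod_orderOf ζ y).symm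
  rw [hx, hy, ZMod.natCast_eq_natCast_iff']
  constructor
  · intro h
    exact hζ.pow_inj (Nat.mod_lt _ hp.pos) (Nat.mod_lt _ hp.pos) h
  · intro h
    rw [h]

/-- if `t` fixes `ζ` and `z ^ p` then `t z = ζ ^ i * z`. -/
theorem exists_pow_smul (hp : p.Prime) (t : Γℚ) {z : Qbar} (hz0 : z ≠ 0) (hz : t (z ^ p) = z ^ p) :
    ∃ i : ℕ, t z = ζ ^ i * z := by
  haveI : NeZero p := ⟨hp.ne_zero⟩
  have h1 : (t z / z) ^ p = 1 := by
    rw [div_pow, ← map_pow, hz, div_self (pow_ne_zero _ hz0)]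
  obtain ⟨i, -, hi⟩ := hζ.eq_pow_of_pow_eq_one h1
  refine ⟨i, ?_⟩
  rw [hi, div_mul_cancel₀ _ hz0]

/-- powers of `t` -/
theorem pow_smul_of (t : Γℚ) (ht : t ζ = ζ) {z : Qbar} {i : ℕ} (hz : t z = ζ ^ i * z) (m : ℕ) :
    (t ^ m) z = ζ ^ (i * m) * z := by
  induction m with
  | zero => simp
  | succ m ih =>
    rw [pow_succ', AlgEquiv.mul_apply, ih, map_mul, map_pow, ht, hz, Nat.mul_succ, pow_add]
    ring

theorem pow_fix_zeta (t : Γℚ) (ht : t ζ = ζ) (m : ℕ) : (t ^ m) ζ = ζ := by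
  induction m with
  | zero => simp
  | succ m ih => rw [pow_succ', AlgEquiv.mul_apply, ih, ht]

/-- **Step A.**  If every `t ∈ I` fixing `ζ` and `b` fixes `β` (with `b ^ p`, `β ^ p` fixed by `I`), then
`β / b ^ n` is fixed by every `t ∈ I` fixing `ζ`, for a suitable `n`. -/
theorem exists_pow_quot_fixed (hp : p.Prime) (I : Subgroup Γℚ)
    {b β : Qbar} (hb0 : b ≠ 0) (hβ0 : β ≠ 0)
    (hb : ∀ t ∈ I, t (b ^ p) = b ^ p) (hβ : ∀ t ∈ I, t (β ^ p) = β ^ p)
    (H : ∀ t ∈ I, t ζ = ζ → t b = b → t β = β) :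
    ∃ n : ℕ, ∀ t ∈ I, t ζ = ζ → t (β / b ^ n) = β / b ^ n := by
  classical
  haveI : Fact p.Prime := ⟨hp⟩
  have hζ0 : ζ ≠ 0 := hζ.ne_zero hp.ne_zero
  by_cases hall : ∀ t ∈ I, t ζ = ζ → t b = b
  · refine ⟨0, fun t ht hz => ?_⟩
    rw [pow_zero, div_one]
    exact H t ht hz (hall t ht hz)
  · simp only [not_forall] at hall
    obtain ⟨t0, ht0, ht0ζ, ht0b⟩ := hall
    obtain ⟨i0, hi0⟩ := exists_pow_smul hζ hp t0 hb0 (hb t0 ht0)
    obtain ⟨j0, hj0⟩ := exists_pow_smul hζ hp t0 hβ0 (hβ t0 ht0)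
    have hi0ne : (i0 : ZMod p) ≠ 0 := by
      intro h0
      apply ht0b
      have : ζ ^ i0 = ζ ^ 0 := (zeta_pow_eq_iff hζ hp i0 0).mpr (by simpa using h0)
      rw [hi0, this, pow_zero, one_mul]
    set n : ℕ := ((j0 : ZMod p) * (i0 : ZMod p)⁻¹).val with hn
    have hncast : (n : ZMod p) * (i0 : ZMod p) = (j0 : ZMod p) := by
      rw [hn, ZMod.natCast_zmod_val, mul_assoc, inv_mul_cancel₀ hi0ne, mul_one]
    refine ⟨n, fun t ht htζ => ?_⟩
    obtain ⟨i, hi⟩ := exists_pow_smul hζ hp t hb0 (hb t ht)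
    obtain ⟨j, hj⟩ := exists_pow_smul hζ hp t hβ0 (hβ t ht)
    -- the two auxiliary elements
    set s : Γℚ := t ^ i0 with hs
    set g : Γℚ := t0 ^ i with hg
    have hsI : s ∈ I := I.pow_mem ht i0
    have hgI : g ∈ I := I.pow_mem ht0 i
    have hsζ : s ζ = ζ := pow_fix_zeta hζ t htζ i0
    have hgζ : g ζ = ζ := pow_fix_zeta hζ t0 ht0ζ i
    have hsb : s b = ζ ^ (i * i0) * b := pow_smul_of hζ t htζ hi i0
    have hgb : g b = ζ ^ (i0 * i) * b := pow_smul_of hζ t0 ht0ζ hi0 i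
    have hsβ : s β = ζ ^ (j * i0) * β := pow_smul_of hζ t htζ hj i0
    have hgβ : g β = ζ ^ (j0 * i) * β := pow_smul_of hζ t0 ht0ζ hj0 i
    have hsg : s b = g b := by rw [hsb, hgb, mul_comm i i0]
    have h1 : (g⁻¹ * s) b = b := by
      rw [AlgEquiv.mul_apply, hsg, ← AlgEquiv.mul_apply, inv_mul_cancel, AlgEquiv.one_apply]
    have h1ζ : (g⁻¹ * s) ζ = ζ := by
      rw [AlgEquiv.mul_apply, hsζ]
      have : (g⁻¹ * g) ζ = ζ := by rw [inv_mul_cancel, AlgEquiv.one_apply]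
      rw [AlgEquiv.mul_apply, hgζ] at this
      exact this
    have h2 : (g⁻¹ * s) β = β := H _ (I.mul_mem (I.inv_mem hgI) hsI) h1ζ h1
    have h3 : s β = g β := by
      have := congrArg g h2
      rw [← AlgEquiv.mul_apply, ← mul_assoc, mul_inv_cancel, one_mul] at this
      exact this
    have h4 : ζ ^ (j * i0) = ζ ^ (j0 * i) := by
      rw [hsβ, hgβ] at h3
      exact mul_right_cancel₀ hβ0 h3
    have h5 : ((j * i0 : ℕ) : ZMod p) = ((j0 * i : ℕ) : ZMod p) := (zeta_pow_eq_iff hζ hp _ _).mp h4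
    have h6 : (j : ZMod p) = (n : ZMod p) * (i : ZMod p) := by
      push_cast at h5
      rw [← hncast] at h5
      have : ((j : ZMod p) - (n : ZMod p) * (i : ZMod p)) * (i0 : ZMod p) = 0 := by
        rw [sub_mul, h5]; ring
      rcases mul_eq_zero.mp this with h | h
      · exact sub_eq_zero.mp h
      · exact absurd h hi0ne
    have h7 : ζ ^ j = ζ ^ (i * n) := by
      rw [zeta_pow_eq_iff hζ hp]
      push_cast
      rw [h6, mul_comm]
    rw [map_div₀, map_pow, hj, hi, mul_pow, ← pow_mul, h7]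
    have hne : ζ ^ (i * n) ≠ 0 := pow_ne_zero _ hζ0
    rw [mul_div_mul_left _ _ hne]

end StepA

/-! ### Step B: norm down to the inertia field -/

/-- **Step B.**  If `c` is fixed by the elements of the inertia group fixing `ζ_p`, and `c ^ p` is
fixed by the whole inertia group, then the `p`-adic valuation of `c ^ p` is divisible by `p`. -/
theorem dvd_of_pow_fixed (hp : p.Prime) (hP : P.LiesOverPrime p) {ζ : Qbar}
    (hζ : IsPrimitiveRoot ζ p) {c : Qbar} (hc0 : c ≠ 0)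
    (hc1 : ∀ t ∈ P.inertiaSubgroupIn ℚ, t ζ = ζ → t c = c)
    (hcp : ∀ t ∈ P.inertiaSubgroupIn ℚ, t (c ^ p) = c ^ p)
    {m : ℤ} {w : Qbar} (hw : P.valuation w = 1) (hm : c ^ p = (p : Qbar) ^ m * w) :
    (p : ℤ) ∣ m := by
  classical
  haveI : NeZero p := ⟨hp.ne_zero⟩
  set I := P.inertiaSubgroupIn ℚ with hI
  let E : Finset ℕ := (Finset.Ico 1 p).filter (fun e => ∃ t ∈ I, t ζ = ζ ^ e)
  let f : ℕ → Qbar := fun e =>
    if h : ∃ t ∈ I, t ζ = ζ ^ e then (Classical.choose h) c else c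
  let O : Finset Qbar := E.image f
  -- (O1)
  have hO1 : ∀ t ∈ I, t c ∈ O := by
    intro t ht
    have h1 : (t ζ) ^ p = 1 := by rw [← map_pow, hζ.pow_eq_one, map_one]
    obtain ⟨e, hep, he⟩ := hζ.eq_pow_of_pow_eq_one h1
    have he0 : e ≠ 0 := by
      rintro rfl
      rw [pow_zero] at he
      have : t ζ = t 1 := by rw [← he, map_one]
      exact hζ.ne_one hp.one_lt (t.injective this)
    have hex : ∃ t' ∈ I, t' ζ = ζ ^ e := ⟨t, ht, he.symm⟩
    have heE : e ∈ E := by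
      simp only [E, Finset.mem_filter, Finset.mem_Ico]
      exact ⟨⟨Nat.one_le_iff_ne_zero.mpr he0, hep⟩, hex⟩
    refine Finset.mem_image.mpr ⟨e, heE, ?_⟩
    have hfe : f e = (Classical.choose hex) c := by
      simp only [f, dif_pos hex]
    obtain ⟨hteI, hteζ⟩ := Classical.choose_spec hex
    set te := Classical.choose hex with hte
    rw [hfe]
    have h2 : (te⁻¹ * t) ζ = ζ := by
      rw [AlgEquiv.mul_apply, ← he, ← hteζ, ← AlgEquiv.mul_apply, inv_mul_cancel, AlgEquiv.one_apply]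
    have h3 : (te⁻¹ * t) c = c := hc1 _ (I.mul_mem (I.inv_mem hteI) ht) h2
    have := congrArg te h3
    rw [← AlgEquiv.mul_apply, ← mul_assoc, mul_inv_cancel, one_mul] at this
    exact this.symm
  -- (O2)
  have hO2 : ∀ x ∈ O, ∃ t ∈ I, x = t c := by
    intro x hx
    obtain ⟨e, heE, rfl⟩ := Finset.mem_image.mp hx
    simp only [E, Finset.mem_filter] at heE
    obtain ⟨-, hex⟩ := heE
    refine ⟨Classical.choose hex, (Classical.choose_spec hex).1, ?_⟩
    simp only [f, dif_pos hex]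
  have hOcard : O.card ≤ p - 1 := by
    calc O.card ≤ E.card := Finset.card_image_le
      _ ≤ (Finset.Ico 1 p).card := Finset.card_filter_le _ _
      _ = p - 1 := by simp
  have hOne : c ∈ O := by
    have := hO1 1 I.one_mem
    simpa using this
  have hOpos : 0 < O.card := Finset.card_pos.mpr ⟨c, hOne⟩
  set N : Qbar := ∏ x ∈ O, x with hN
  have hN0 : N ≠ 0 := by
    rw [hN, Finset.prod_ne_zero_iff]
    intro x hx
    obtain ⟨t, -, rfl⟩ := hO2 x hx
    exact (map_ne_zero t).mpr hc0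
  have hNfix : ∀ s ∈ I, s N = N := by
    intro s hs
    have himg : O.image s = O := by
      apply Finset.eq_of_subset_of_card_le
      · intro y hy
        obtain ⟨x, hx, rfl⟩ := Finset.mem_image.mp hy
        obtain ⟨t, ht, rfl⟩ := hO2 x hx
        rw [← AlgEquiv.mul_apply]
        exact hO1 _ (I.mul_mem hs ht)
      · rw [Finset.card_image_of_injective _ s.injective]
    rw [hN, map_prod]
    have h1 : ∏ y ∈ O.image s, y = ∏ x ∈ O, s x :=
      Finset.prod_image (f := fun y => y) (fun x _ y _ hxy => s.injective hxy)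
    rw [← h1, himg]
  have hNp : N ^ p = (c ^ p) ^ O.card := by
    rw [hN, ← Finset.prod_pow]
    rw [Finset.prod_congr rfl (g := fun _ => c ^ p)]
    · rw [Finset.prod_const]
    · intro x hx
      obtain ⟨t, ht, rfl⟩ := hO2 x hx
      rw [← map_pow, hcp t ht]
  obtain ⟨m', w', hw', hNw⟩ := exists_zpow_mul_unit P hp hP N hN0 hNfix
  have hval : (p : Qbar) ^ (m' * (p : ℤ)) * w' ^ p = (p : Qbar) ^ (m * (O.card : ℤ)) * w ^ O.card := by
    have h1 : N ^ p = (p : Qbar) ^ (m' * (p : ℤ)) * w' ^ p := by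
      rw [hNw, mul_pow, zpow_mul, zpow_natCast]
    have h2 : (c ^ p) ^ O.card = (p : Qbar) ^ (m * (O.card : ℤ)) * w ^ O.card := by
      rw [hm, mul_pow, zpow_mul, zpow_natCast]
    rw [← h1, ← h2, hNp]
  have hu1 : P.valuation (w' ^ p) = 1 := by rw [map_pow, hw', one_pow]
  have hu2 : P.valuation (w ^ O.card) = 1 := by rw [map_pow, hw, one_pow]
  have heq : m' * (p : ℤ) = m * (O.card : ℤ) := zpow_unique P hp hP hu1 hu2 hval
  have hdvd : (p : ℤ) ∣ m * (O.card : ℤ) := ⟨m', by rw [← heq, mul_comm]⟩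
  have hcop : IsCoprime (p : ℤ) (O.card : ℤ) := by
    rw [Int.isCoprime_iff_gcd_eq_one, Int.gcd_natCast_natCast]
    apply (Nat.Prime.coprime_iff_not_dvd hp).mpr
    intro hd
    have := Nat.le_of_dvd hOpos hd
    omega
  exact hcop.dvd_of_dvd_mul_right hdvd

/-- **Bridge lemma (finite level).**  `I` = inertia group of `P | p`.  Let `b ^ p = u` be an `I`-fixed UNIT
of `P` and `β ^ p = a` an `I`-fixed nonzero element.  If every `t ∈ I` fixing `ζ_p` and `b` fixes `β`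
(i.e. `K0(ζ_p, β) ⊆ K0(ζ_p, b)`: the Kummer class `a` is "peu ramifié"), then `p ∣ v_p(a)`:
whenever `a = p ^ m * (unit of P)` we have `p ∣ m`. -/
theorem dvd_val_of_peu (hp : p.Prime) (hP : P.LiesOverPrime p) {ζ : Qbar}
    (hζ : IsPrimitiveRoot ζ p)
    {b u : Qbar} (hbu : b ^ p = u) (hu : P.valuation u = 1)
    (hufix : ∀ t ∈ P.inertiaSubgroupIn ℚ, t u = u)
    {β a : Qbar} (hβa : β ^ p = a) (ha0 : a ≠ 0)
    (hafix : ∀ t ∈ P.inertiaSubgroupIn ℚ, t a = a)
    (H : ∀ t ∈ P.inertiaSubgroupIn ℚ, t ζ = ζ → t b = b → t β = β)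
    {m : ℤ} {w : Qbar} (hw : P.valuation w = 1) (hm : a = (p : Qbar) ^ m * w) :
    (p : ℤ) ∣ m := by
  have hu0 : u ≠ 0 := by
    intro h
    rw [h, map_zero] at hu
    exact zero_ne_one hu
  have hb0 : b ≠ 0 := by
    intro h
    rw [h, zero_pow hp.ne_zero] at hbu
    exact hu0 hbu.symm
  have hβ0 : β ≠ 0 := by
    intro h
    rw [h, zero_pow hp.ne_zero] at hβa
    exact ha0 hβa.symm
  obtain ⟨n, hn⟩ := exists_pow_quot_fixed hζ hp (P.inertiaSubgroupIn ℚ) hb0 hβ0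
    (fun t ht => by rw [hbu]; exact hufix t ht) (fun t ht => by rw [hβa]; exact hafix t ht) H
  have hc0 : β / b ^ n ≠ 0 := div_ne_zero hβ0 (pow_ne_zero _ hb0)
  have hcp : (β / b ^ n) ^ p = a / u ^ n := by
    rw [div_pow, hβa, ← pow_mul, mul_comm, pow_mul, hbu]
  have hcpfix : ∀ t ∈ P.inertiaSubgroupIn ℚ, t ((β / b ^ n) ^ p) = (β / b ^ n) ^ p := by
    intro t ht
    rw [hcp, map_div₀, map_pow, hafix t ht, hufix t ht]
  have hw2 : P.valuation (w / u ^ n) = 1 := by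
    rw [map_div₀, map_pow, hw, hu, one_pow, div_one]
  have hm2 : (β / b ^ n) ^ p = (p : Qbar) ^ m * (w / u ^ n) := by
    rw [hcp, hm, mul_div_assoc]
  exact dvd_of_pow_fixed P hp hP hζ hc0 hn hcpfix hw2 hm2

end Fermat.Agent.S40x.Bridge.KummerPeu
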